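/-
S17lib / CRV / Integral  (helper8) — Project G, block CRV, part 1.

* `isIntegral_adjoin_of_forall_mem` : `x` transcendental, `F / K(x)` finite, `y` regular at every
  place where `x` is regular `⇒` `y` is integral over `K[x]`;
* `ev2 x y G` : the value of a bivariate polynomial `G ∈ K[X][Y]` at a point `(x, y)` of a
  `K`-algebra, with its functoriality;
* `exists_monic_ev2_eq_zero` : the integral equation as a bivariate polynomial, monic in `Y`.
-/
import Mathlib
import Fermat.Agent.ProgramR.FunctionField.Fibre

set_option autoImplicit false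
set_option linter.unusedSectionVars false
set_option linter.style.haveILetI false

noncomputable section

namespace Fermat.Agent.S17lib.CRV

open AlgebraicCurve IsDedekindDomain IntermediateField Polynomial
open Fermat.Agent.ProgramR Fermat.Agent.ProgramR.FF

section Integral

variable {K F : Type*} [Field K] [Field F] [Algebra K F]

/-- **integrality from regularity**: if `y` is regular at every place where `x` is regular, then
`y` is integral over `K[x]`. -/
theorem isIntegral_adjoin_of_forall_mem [CharZero K] (x : F) [FiniteDimensional K⟮x⟯ F]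
    (hx : Transcendental K x) (y : F)
    (h : ∀ v : Place K F, x ∈ v.toValuationSubring → y ∈ v.toValuationSubring) :
    IsIntegral (Algebra.adjoin K {x}) y := by
  haveI := isDedekindDomain_intClosure x hx
  haveI := isFractionRing_intClosure (K := K) x
  have hval : ∀ P : HeightOneSpectrum (integralClosure (Algebra.adjoin K {x}) F),
      P.valuation F y ≤ 1 := by
    intro P
    have hxP : x ∈ (Place.ofHeightOneSpectrum (K := K) P).toValuationSubring := by
      have := algebraMap_mem_ofHeightOneSpectrum (K := K) (F := F) P (genB K x)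
      rwa [algebraMap_genB] at this
    have hy := h _ hxP
    rw [Place.ofHeightOneSpectrum_toValuationSubring, Valuation.mem_valuationSubring_iff] at hy
    exact hy
  obtain ⟨r, hr⟩ := HeightOneSpectrum.mem_integers_of_valuation_le_one F y hval
  rw [← hr]
  exact r.2

end Integral

section Ev2

variable {K : Type*} [Field K]

/-- the value of `G ∈ K[X][Y]` at the point `(x, y)` of a `K`-algebra -/
def ev2 {A : Type*} [CommRing A] [Algebra K A] (x y : A) (G : K[X][X]) : A :=
  eval₂ ((aeval x : K[X] →ₐ[K] A) : K[X] →+* A) y G

theorem ev2_algHom {A B : Type*} [CommRing A] [Algebra K A] [CommRing B] [Algebra K B]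
    (φ : A →ₐ[K] B) (x y : A) (G : K[X][X]) : φ (ev2 x y G) = ev2 (φ x) (φ y) G := by
  unfold ev2
  have h := hom_eval₂ G ((aeval x : K[X] →ₐ[K] A) : K[X] →+* A) (φ : A →+* B) y
  rw [RingHom.coe_coe] at h
  rw [h]
  congr 1
  rw [aeval_algHom]
  rfl

theorem ev2_self (x y : K) (G : K[X][X]) : ev2 x y G = (G.map (evalRingHom x)).eval y := by
  unfold ev2
  rw [eval_map]
  congr 1

theorem ev2_eq_zero_of_algHom_injective {A B : Type*} [CommRing A] [Algebra K A] [CommRing B]
    [Algebra K B] (φ : A →ₐ[K] B) (hφ : Function.Injective φ) {x y : A} {G : K[X][X]}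
    (h : ev2 (φ x) (φ y) G = 0) : ev2 x y G = 0 := by
  apply hφ
  rw [ev2_algHom, h, map_zero]

end Ev2

section Equation

variable {K F : Type*} [Field K] [Field F] [Algebra K F]

/-- an integral equation over `K[x]` as a bivariate polynomial, monic in `Y` -/
theorem exists_monic_ev2_eq_zero (x : F) (hx : Transcendental K x) {y : F}
    (hy : IsIntegral (Algebra.adjoin K {x}) y) :
    ∃ G : K[X][X], G.Monic ∧ ev2 x y G = 0 := by
  obtain ⟨p, hp, hpy⟩ := hy
  let e := Polynomial.algEquivOfTranscendental K x hx
  refine ⟨p.map (e.symm : Algebra.adjoin K {x} →+* K[X]), hp.map _, ?_⟩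
  unfold ev2
  rw [eval₂_map]
  have hcomp : (((aeval x : K[X] →ₐ[K] F) : K[X] →+* F)).comp
      (e.symm : Algebra.adjoin K {x} →+* K[X]) = algebraMap (Algebra.adjoin K {x}) F := by
    ext a
    obtain ⟨q, rfl⟩ := e.surjective a
    simp only [RingHom.coe_comp, RingHom.coe_coe, Function.comp_apply, AlgEquiv.symm_apply_apply]
    simp [e, Polynomial.algEquivOfTranscendental]
  rw [hcomp]
  exact hpy

end Equation

end Fermat.Agent.S17lib.CRV
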