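/-
S17lib / CRV / IntBound  (helper8) — Project G, block CRV, part 2: the INT-bound.

`F / ℚ̄` a function field with rational places, `t ∈ F` transcendental with `F / ℚ̄(t)` finite,
`z ∈ L(a (t)_∞)`, i.e. `z` is regular where `t` is regular and `z / t^a` is regular at the poles
of `t`.  Then there are local constants `B p ≥ 1`, almost all equal to `1`, with

  `|σ (z(P))|_p ≤ B p * max(1, |σ (t(P))|_p)^a`

for every place `P` at which `t` is regular, every `σ ∈ G_ℚ` and every place `p` of `ℚ`
(`int_bound`).  Consequences: `lp_val_le` (local log-plus form) and `h1_val_le` (heights).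
-/
import Mathlib
import Fermat.Agent.S17lib.CRV.Integral
import Fermat.Agent.S17lib.HT.ConjBound
import Fermat.Agent.S17lib.HT.Basic
import Fermat.Agent.S15lib.Weil.Eval

set_option autoImplicit false
set_option linter.unusedSectionVars false
set_option linter.style.haveILetI false

noncomputable section

namespace Fermat.Agent.S17lib.CRV

open AlgebraicCurve IntermediateField Polynomial
open Fermat.Agent.ProgramR Fermat.Agent.ProgramR.FF
open Fermat.Agent.S15lib.Weil Fermat.Agent.S17lib.HT

section General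

variable {K F : Type*} [Field K] [Field F] [Algebra K F]

theorem transcendental_inv {t : F} (ht : Transcendental K t) : Transcendental K t⁻¹ := by
  intro h
  apply ht
  have := h.inv
  rwa [inv_inv] at this

theorem adjoin_simple_inv (t : F) : K⟮t⁻¹⟯ = K⟮t⟯ := by
  apply le_antisymm
  · rw [adjoin_simple_le_iff]
    exact inv_mem (mem_adjoin_simple_self K t)
  · rw [adjoin_simple_le_iff]
    have := inv_mem (mem_adjoin_simple_self K t⁻¹)
    rwa [inv_inv] at this

theorem finiteDimensional_adjoin_inv (t : F) [h : FiniteDimensional K⟮t⟯ F] :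
    FiniteDimensional K⟮t⁻¹⟯ F := by
  rw [adjoin_simple_inv]
  exact h

variable [RatPlaces K F]

/-- evaluation of a bivariate relation at a place -/
theorem ev2_val (P : Place K F) {x y : F} (hx : x ∈ P.toValuationSubring)
    (hy : y ∈ P.toValuationSubring) {G : K[X][X]} (h : ev2 x y G = 0) :
    ev2 (val P x) (val P y) G = 0 := by
  let ι : P.toValuationSubring →ₐ[K] F := IsScalarTower.toAlgHom K P.toValuationSubring F
  have hι : Function.Injective ι := Subtype.val_injective
  have h1 : ev2 (⟨x, hx⟩ : P.toValuationSubring) ⟨y, hy⟩ G = 0 :=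
    ev2_eq_zero_of_algHom_injective ι hι h
  have h2 := congrArg (resK P) h1
  rw [ev2_algHom, map_zero] at h2
  rw [val_of_mem P hx, val_of_mem P hy]
  exact h2

/-- a place where `t` is regular with non-zero value is a place where `t⁻¹` is regular -/
theorem ord_eq_zero_of_val_ne_zero (P : Place K F) {t : F} (ht : t ∈ P.toValuationSubring)
    (h : val P t ≠ 0) : P.ord t = 0 := by
  have h1 := FF.ord_nonneg_of_mem P ht
  have h2 : ¬ (t = 0 ∨ 0 < P.ord t) := fun h' => h ((val_eq_zero_iff P ht).2 h')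
  push Not at h2
  omega

end General

section Qb

variable {F : Type*} [Field F] [Algebra Qb F] [RatPlaces Qb F]

/-- **the INT-bound** -/
theorem int_bound (t z : F) (ht : Transcendental Qb t) [FiniteDimensional Qb⟮t⟯ F] (a : ℕ)
    (hz : ∀ P : Place Qb F, t ∈ P.toValuationSubring → z ∈ P.toValuationSubring)
    (hw : ∀ P : Place Qb F, t ∉ P.toValuationSubring → z * t⁻¹ ^ a ∈ P.toValuationSubring) :
    ∃ B : Plc → ℝ, (∀ p, 1 ≤ B p) ∧ {p | B p ≠ 1}.Finite ∧
      ∀ P : Place Qb F, t ∈ P.toValuationSubring → ∀ (σ : GQ) (p : Plc),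
        absv p (σ (val P z)) ≤ B p * (max 1 (absv p (σ (val P t)))) ^ a := by
  -- the equation of `z` over `ℚ̄[t]`
  obtain ⟨G₁, hG₁, hG₁z⟩ := exists_monic_ev2_eq_zero t ht
    (isIntegral_adjoin_of_forall_mem t ht z hz)
  -- the equation of `w = z / t^a` over `ℚ̄[1/t]`
  have hs : Transcendental Qb t⁻¹ := transcendental_inv ht
  haveI : FiniteDimensional Qb⟮t⁻¹⟯ F := finiteDimensional_adjoin_inv t
  have hwreg : ∀ P : Place Qb F, t⁻¹ ∈ P.toValuationSubring →
      z * t⁻¹ ^ a ∈ P.toValuationSubring := by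
    intro P hsP
    by_cases htP : t ∈ P.toValuationSubring
    · exact mul_mem (hz P htP) (pow_mem hsP a)
    · exact hw P htP
  obtain ⟨G₂, hG₂, hG₂w⟩ := exists_monic_ev2_eq_zero t⁻¹ hs
    (isIntegral_adjoin_of_forall_mem t⁻¹ hs (z * t⁻¹ ^ a) hwreg)
  refine ⟨fun p => bG G₁ p * bG G₂ p, fun p => ?_, ?_, ?_⟩
  · exact one_le_mul_of_one_le_of_one_le (one_le_bG G₁ p) (one_le_bG G₂ p)
  · refine ((finite_bG_ne_one G₁).union (finite_bG_ne_one G₂)).subset ?_
    intro p hp
    rw [Set.mem_ofPred_eq] at hp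
    by_contra hcon
    rw [Set.mem_union, not_or] at hcon
    simp only [Set.mem_ofPred_eq, not_not] at hcon
    apply hp
    show bG G₁ p * bG G₂ p = 1
    rw [hcon.1, hcon.2, one_mul]
  · intro P htP σ p
    have hzP := hz P htP
    have h1 := one_le_bG G₁ p
    have h2 := one_le_bG G₂ p
    have hmax : 1 ≤ max 1 (absv p (σ (val P t))) := le_max_left _ _
    have hmaxa : 1 ≤ max 1 (absv p (σ (val P t))) ^ a := one_le_pow₀ hmax
    rcases le_or_gt (absv p (σ (val P t))) 1 with hle | hgt
    · -- regime `|t(P)| ≤ 1`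
      have hrel : ev2 (val P t) (val P z) G₁ = 0 := ev2_val P htP hzP hG₁z
      rw [ev2_self] at hrel
      have hb := absv_conj_root_le_bG G₁ hG₁ hrel σ p hle
      calc absv p (σ (val P z)) ≤ bG G₁ p := hb
        _ = bG G₁ p * 1 * 1 := by ring
        _ ≤ bG G₁ p * bG G₂ p * max 1 (absv p (σ (val P t))) ^ a := by gcongr
    · -- regime `|t(P)| > 1`
      have hτ0 : val P t ≠ 0 := by
        intro h0
        rw [h0, map_zero, map_zero] at hgt
        exact absurd hgt (by norm_num)
      have hord : P.ord t = 0 := ord_eq_zero_of_val_ne_zero P htP hτ0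
      have ht0 : t ≠ 0 := by
        rintro rfl
        exact hτ0 (val_zero P)
      have hord' : P.ord t⁻¹ = 0 := by rw [P.ord_inv, hord, neg_zero]
      have hsP : t⁻¹ ∈ P.toValuationSubring := mem_of_ord_eq_zero P hord'
      have hwP : z * t⁻¹ ^ a ∈ P.toValuationSubring := hwreg P hsP
      have hrel : ev2 (val P t⁻¹) (val P (z * t⁻¹ ^ a)) G₂ = 0 := ev2_val P hsP hwP hG₂w
      rw [ev2_self, val_inv P ht0 hord, val_mul P hzP (pow_mem hsP a), val_pow P hsP,
        val_inv P ht0 hord] at hrel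
      have hle' : absv p (σ (val P t)⁻¹) ≤ 1 := by
        rw [map_inv₀, map_inv₀]
        exact inv_le_one_of_one_le₀ hgt.le
      have hb := absv_conj_root_le_bG G₂ hG₂ hrel σ p hle'
      rw [map_mul, map_mul, map_pow, map_pow, map_inv₀, map_inv₀] at hb
      have hpos : 0 < absv p (σ (val P t)) := lt_trans one_pos hgt
      have hb' : absv p (σ (val P z)) ≤ bG G₂ p * absv p (σ (val P t)) ^ a := by
        have hpa : 0 < absv p (σ (val P t)) ^ a := by positivity
        have := mul_le_mul_of_nonneg_right hb hpa.le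
        rwa [mul_assoc, inv_pow, inv_mul_cancel₀ hpa.ne', mul_one] at this
      calc absv p (σ (val P z)) ≤ bG G₂ p * absv p (σ (val P t)) ^ a := hb'
        _ = 1 * bG G₂ p * absv p (σ (val P t)) ^ a := by ring
        _ ≤ bG G₁ p * bG G₂ p * max 1 (absv p (σ (val P t))) ^ a := by
          gcongr
          exact le_max_right _ _

/-- from a multiplicative local bound to the local log-plus -/
theorem lp_le_of_absv_le {p : Plc} {x y : Qb} {B : ℝ} (hB : 1 ≤ B) (a : ℕ)
    (h : absv p x ≤ B * (max 1 (absv p y)) ^ a) : HT.lp p x ≤ Real.log B + a * HT.lp p y := by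
  unfold HT.lp
  have hm : (0 : ℝ) < max 1 (absv p y) := lt_of_lt_of_le one_pos (le_max_left _ _)
  rw [← Real.log_pow, ← Real.log_mul (by positivity) (by positivity)]
  apply Real.log_le_log (by positivity)
  refine max_le ?_ h
  exact one_le_mul_of_one_le_of_one_le hB (one_le_pow₀ (le_max_left _ _))

theorem hasFiniteSupport_log_of_finite_ne_one {B : Plc → ℝ} (h : {p | B p ≠ 1}.Finite) :
    (fun p => Real.log (B p)).HasFiniteSupport := by
  refine h.subset fun p hp => ?_
  rw [Function.mem_support] at hp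
  rw [Set.mem_ofPred_eq]
  intro h1
  apply hp
  rw [h1, Real.log_one]

/-- **the INT-bound, local log-plus form** -/
theorem int_bound_lp (t z : F) (ht : Transcendental Qb t) [FiniteDimensional Qb⟮t⟯ F] (a : ℕ)
    (hz : ∀ P : Place Qb F, t ∈ P.toValuationSubring → z ∈ P.toValuationSubring)
    (hw : ∀ P : Place Qb F, t ∉ P.toValuationSubring → z * t⁻¹ ^ a ∈ P.toValuationSubring) :
    ∃ c : Plc → ℝ, c.HasFiniteSupport ∧ (∀ p, 0 ≤ c p) ∧
      ∀ P : Place Qb F, t ∈ P.toValuationSubring → ∀ (σ : GQ) (p : Plc),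
        HT.lp p (σ (val P z)) ≤ c p + a * HT.lp p (σ (val P t)) := by
  obtain ⟨B, hB1, hBfin, hB⟩ := int_bound t z ht a hz hw
  refine ⟨fun p => Real.log (B p), hasFiniteSupport_log_of_finite_ne_one hBfin,
    fun p => Real.log_nonneg (hB1 p), fun P hP σ p => ?_⟩
  exact lp_le_of_absv_le (hB1 p) a (hB P hP σ p)

/-- **the INT-bound for heights**: `h(z(P)) ≤ a h(t(P)) + C` for `z ∈ L(a (t)_∞)`. -/
theorem h1_val_le (t z : F) (ht : Transcendental Qb t) [FiniteDimensional Qb⟮t⟯ F] (a : ℕ)
    (hz : ∀ P : Place Qb F, t ∈ P.toValuationSubring → z ∈ P.toValuationSubring)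
    (hw : ∀ P : Place Qb F, t ∉ P.toValuationSubring → z * t⁻¹ ^ a ∈ P.toValuationSubring) :
    ∃ C : ℝ, 0 ≤ C ∧ ∀ P : Place Qb F, t ∈ P.toValuationSubring →
      h1 (val P z) ≤ a * h1 (val P t) + C := by
  obtain ⟨c, hcfs, hc0, hc⟩ := int_bound_lp t z ht a hz hw
  refine ⟨∑ᶠ p, c p, finsum_nonneg hc0, fun P hP => ?_⟩
  have h := master2 (val P z) (val P t) 1 (-(a : ℝ)) 0 0 (fun _ => rfl) (fun _ => rfl) c hcfs
    (fun σ p => by
      have := hc P hP σ p
      linarith)
  linarith

end Qb

end Fermat.Agent.S17lib.CRV
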