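/-
S17lib / CRV / Main  (helper8) — Project G, block CRV, part 3: the comparison theorem.

`F / ℚ̄` a curve of genus `g` (`IsCurveOfGenus`), `v, w ∈ F`, `v` non-constant.  Then for every
`ε > 0` there is `C` with

  `h(w(P)) ≤ (deg (w)_∞ / deg (v)_∞ + ε) h(v(P)) + C`

for every place `P` at which `v` and `w` are regular (`crv`).  Heights: `HT.h1`; values:
`S15lib.Weil.val`; degrees: `Divisor.degree (Tame.poleDiv ·)`.
-/
import Mathlib
import Fermat.Agent.S17lib.CRV.IntBound
import Fermat.Agent.S18lib.Tame.ZeroPole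
import Fermat.Agent.S37lib.Red.Curve

set_option autoImplicit false
set_option linter.unusedSectionVars false
set_option linter.style.haveILetI false

noncomputable section

namespace Fermat.Agent.S17lib.CRV

open AlgebraicCurve IntermediateField Module
open Fermat.Agent.ProgramR Fermat.Agent.S18lib
open Fermat.Agent.S15lib.Weil Fermat.Agent.S17lib.HT

section Val

variable {K F : Type*} [Field K] [Field F] [Algebra K F] [RatPlaces K F]

theorem val_smul (P : Place K F) (c : K) {f : F} (hf : f ∈ P.toValuationSubring) :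
    val P (c • f) = c * val P f := by
  rw [Algebra.smul_def, val_mul P (P.algebraMap_mem' c) hf, val_algebraMap]

theorem val_sum (P : Place K F) {ι : Type*} (s : Finset ι) (f : ι → F)
    (hf : ∀ i ∈ s, f i ∈ P.toValuationSubring) :
    val P (∑ i ∈ s, f i) = ∑ i ∈ s, val P (f i) := by
  classical
  induction s using Finset.induction with
  | empty => simp
  | insert a s ha ih =>
    have hs : ∀ i ∈ s, f i ∈ P.toValuationSubring := fun i hi => hf i (Finset.mem_insert_of_mem hi)
    rw [Finset.sum_insert ha, Finset.sum_insert ha,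
      val_add P (hf a (Finset.mem_insert_self a s)) (sum_mem hs), ih hs]

end Val

section Div

variable {K F : Type*} [Field K] [Field F] [Algebra K F] [HasPrincipalDivisors K F]

/-- the divisor `a (v)_∞ - b (w)_∞` -/
def crvDiv (v w : F) (a b : ℕ) : Divisor K F :=
  (a : ℤ) • Tame.poleDiv (K := K) v - (b : ℤ) • Tame.poleDiv (K := K) w

theorem crvDiv_apply (v w : F) (a b : ℕ) (P : Place K F) :
    crvDiv (K := K) v w a b P = a * max (-P.ord v) 0 - b * max (-P.ord w) 0 := by
  simp [crvDiv, Tame.poleDiv_apply]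

theorem degree_crvDiv (v w : F) (a b : ℕ) :
    Divisor.degree (crvDiv (K := K) v w a b) =
      a * Divisor.degree (Tame.poleDiv (K := K) v) - b * Divisor.degree (Tame.poleDiv (K := K) w) := by
  simp [crvDiv]

theorem ord_pow (P : Place K F) (f : F) (n : ℕ) : P.ord (f ^ n) = n * P.ord f := by
  have := P.ord_zpow f n
  rwa [zpow_natCast] at this

variable {v w : F} {a b : ℕ} {z : F}

/-- elements of `L(a (v)_∞ - b (w)_∞)` are regular where `v` is -/
theorem mem_of_mem_crvDiv (hz : z ∈ riemannRochSpace (crvDiv (K := K) v w a b)) (P : Place K F)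
    (hv : v ∈ P.toValuationSubring) : z ∈ P.toValuationSubring := by
  rcases eq_or_ne z 0 with rfl | hz0
  · exact zero_mem _
  have h := (mem_riemannRochSpace_iff.1 hz P).resolve_left hz0
  rw [crvDiv_apply] at h
  have hv' := FF.ord_nonneg_of_mem P hv
  have h1 : max (-P.ord v) 0 = 0 := max_eq_right (by omega)
  have h2 : (0 : ℤ) ≤ max (-P.ord w) 0 := le_max_right _ _
  rw [h1] at h
  apply FF.mem_of_ord_nonneg
  have : (0 : ℤ) ≤ b * max (-P.ord w) 0 := by positivity
  linarith

theorem mul_inv_pow_mem_of_mem_crvDiv (hz : z ∈ riemannRochSpace (crvDiv (K := K) v w a b))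
    (P : Place K F) (hv : v ∉ P.toValuationSubring) : z * v⁻¹ ^ a ∈ P.toValuationSubring := by
  rcases eq_or_ne z 0 with rfl | hz0
  · rw [zero_mul]; exact zero_mem _
  have hv0 : v ≠ 0 := fun h => hv (h ▸ zero_mem _)
  have hv' : P.ord v < 0 := by
    by_contra hcon
    push Not at hcon
    exact hv (FF.mem_of_ord_nonneg P hcon)
  have h := (mem_riemannRochSpace_iff.1 hz P).resolve_left hz0
  rw [crvDiv_apply] at h
  have h1 : max (-P.ord v) 0 = -P.ord v := max_eq_left (by omega)
  have h2 : (0 : ℤ) ≤ max (-P.ord w) 0 := le_max_right _ _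
  rw [h1] at h
  apply FF.mem_of_ord_nonneg
  rw [P.ord_mul hz0 (pow_ne_zero _ (inv_ne_zero hv0)), ord_pow, P.ord_inv]
  have : (0 : ℤ) ≤ b * max (-P.ord w) 0 := by positivity
  linarith

theorem mul_pow_mem_of_mem_crvDiv (hw0 : w ≠ 0)
    (hz : z ∈ riemannRochSpace (crvDiv (K := K) v w a b)) (P : Place K F)
    (hv : v ∈ P.toValuationSubring) : z * w ^ b ∈ P.toValuationSubring := by
  rcases eq_or_ne z 0 with rfl | hz0
  · rw [zero_mul]; exact zero_mem _
  have h := (mem_riemannRochSpace_iff.1 hz P).resolve_left hz0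
  rw [crvDiv_apply] at h
  have hv' := FF.ord_nonneg_of_mem P hv
  have h1 : max (-P.ord v) 0 = 0 := max_eq_right (by omega)
  have h2 : -P.ord w ≤ max (-P.ord w) 0 := le_max_left _ _
  rw [h1] at h
  apply FF.mem_of_ord_nonneg
  rw [P.ord_mul hz0 (pow_ne_zero _ hw0), ord_pow]
  have : (b : ℤ) * -P.ord w ≤ b * max (-P.ord w) 0 := by gcongr
  linarith

theorem mul_pow_mul_inv_pow_mem_of_mem_crvDiv (hw0 : w ≠ 0)
    (hz : z ∈ riemannRochSpace (crvDiv (K := K) v w a b)) (P : Place K F)
    (hv : v ∉ P.toValuationSubring) : z * w ^ b * v⁻¹ ^ a ∈ P.toValuationSubring := by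
  rcases eq_or_ne z 0 with rfl | hz0
  · rw [zero_mul, zero_mul]; exact zero_mem _
  have hv0 : v ≠ 0 := fun h => hv (h ▸ zero_mem _)
  have hv' : P.ord v < 0 := by
    by_contra hcon
    push Not at hcon
    exact hv (FF.mem_of_ord_nonneg P hcon)
  have h := (mem_riemannRochSpace_iff.1 hz P).resolve_left hz0
  rw [crvDiv_apply] at h
  have h1 : max (-P.ord v) 0 = -P.ord v := max_eq_left (by omega)
  have h2 : -P.ord w ≤ max (-P.ord w) 0 := le_max_left _ _
  rw [h1] at h
  apply FF.mem_of_ord_nonneg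
  rw [P.ord_mul (mul_ne_zero hz0 (pow_ne_zero _ hw0)) (pow_ne_zero _ (inv_ne_zero hv0)),
    P.ord_mul hz0 (pow_ne_zero _ hw0), ord_pow, ord_pow, P.ord_inv]
  have : (b : ℤ) * -P.ord w ≤ b * max (-P.ord w) 0 := by gcongr
  linarith

end Div

section Main

variable {F : Type*} [Field F] [Algebra Qb F] {g : ℕ}

/-- the local inequality behind `crv_aux` -/
theorem crv_local {X W V B B' : ℝ} {a b : ℕ} (hX : 0 < X) (_hW : 0 ≤ W) (hV : 1 ≤ V) (hB : 1 ≤ B)
    (hB' : 1 ≤ B') (h1 : X ≤ B * V ^ a) (h2 : X * W ^ b ≤ B' * V ^ a) :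
    (b : ℝ) * Real.log (max 1 W) + Real.log X ≤ Real.log B + Real.log B' + a * Real.log V := by
  have hV0 : 0 < V := lt_of_lt_of_le one_pos hV
  have hB0 : 0 < B := lt_of_lt_of_le one_pos hB
  have hB'0 : 0 < B' := lt_of_lt_of_le one_pos hB'
  have hm : 0 < max 1 W := lt_of_lt_of_le one_pos (le_max_left _ _)
  have hVa : 1 ≤ V ^ a := one_le_pow₀ hV
  rw [← Real.log_pow, ← Real.log_pow, ← Real.log_mul (by positivity) (by positivity),
    ← Real.log_mul (by positivity) (by positivity), ← Real.log_mul (by positivity) (by positivity)]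
  apply Real.log_le_log (by positivity)
  rcases le_total W 1 with hle | hge
  · rw [max_eq_left hle, one_pow, one_mul]
    calc X ≤ B * V ^ a := h1
      _ = B * 1 * V ^ a := by ring
      _ ≤ B * B' * V ^ a := by gcongr
  · rw [max_eq_right hge, mul_comm]
    calc X * W ^ b ≤ B' * V ^ a := h2
      _ = 1 * B' * V ^ a := by ring
      _ ≤ B * B' * V ^ a := by gcongr

variable [HasPrincipalDivisors Qb F] [RatPlaces Qb F]

/-- **CRV, integral form**: if `a deg (v)_∞ - b deg (w)_∞ ≥ 2g` then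
`b h(w(P)) ≤ a h(v(P)) + C`. -/
theorem crv_aux (hF : IsCurveOfGenus Qb F g) (v w : F) (hw0 : w ≠ 0) (hv : Transcendental Qb v)
    [FiniteDimensional Qb⟮v⟯ F] (a b : ℕ)
    (hdeg : 2 * (g : ℤ) ≤ a * Divisor.degree (Tame.poleDiv (K := Qb) v)
      - b * Divisor.degree (Tame.poleDiv (K := Qb) w)) :
    ∃ C : ℝ, ∀ P : Place Qb F, v ∈ P.toValuationSubring → w ∈ P.toValuationSubring →
      (b : ℝ) * h1 (val P w) ≤ a * h1 (val P v) + C := by
  classical
  set E : Divisor Qb F := crvDiv (K := Qb) v w a b with hE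
  have hdegE : 2 * (g : ℤ) ≤ Divisor.degree E := by rw [hE, degree_crvDiv]; exact hdeg
  haveI := hF.finiteDimensional E
  set bs := Module.finBasis Qb (riemannRochSpace E) with hbs
  set r := finrank Qb (riemannRochSpace E) with hr
  have hzmem : ∀ j : Fin r, ((bs j : riemannRochSpace E) : F) ∈ riemannRochSpace E :=
    fun j => (bs j).2
  -- the two families of local constants
  have hI1 : ∀ j : Fin r, ∃ B : Plc → ℝ, (∀ p, 1 ≤ B p) ∧ {p | B p ≠ 1}.Finite ∧
      ∀ P : Place Qb F, v ∈ P.toValuationSubring → ∀ (σ : GQ) (p : Plc),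
        absv p (σ (val P ((bs j : riemannRochSpace E) : F))) ≤
          B p * (max 1 (absv p (σ (val P v)))) ^ a := fun j =>
    int_bound v _ hv a (fun P hP => mem_of_mem_crvDiv (hzmem j) P hP)
      (fun P hP => mul_inv_pow_mem_of_mem_crvDiv (hzmem j) P hP)
  have hI2 : ∀ j : Fin r, ∃ B : Plc → ℝ, (∀ p, 1 ≤ B p) ∧ {p | B p ≠ 1}.Finite ∧
      ∀ P : Place Qb F, v ∈ P.toValuationSubring → ∀ (σ : GQ) (p : Plc),
        absv p (σ (val P (((bs j : riemannRochSpace E) : F) * w ^ b))) ≤
          B p * (max 1 (absv p (σ (val P v)))) ^ a := fun j =>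
    int_bound v _ hv a (fun P hP => mul_pow_mem_of_mem_crvDiv hw0 (hzmem j) P hP)
      (fun P hP => mul_pow_mul_inv_pow_mem_of_mem_crvDiv hw0 (hzmem j) P hP)
  choose B hB1 hBfin hB using hI1
  choose B' hB'1 hB'fin hB' using hI2
  have hfs : ∀ j : Fin r, (fun p => Real.log (B j p) + Real.log (B' j p)).HasFiniteSupport :=
    fun j => (hasFiniteSupport_log_of_finite_ne_one (hBfin j)).add
      (hasFiniteSupport_log_of_finite_ne_one (hB'fin j))
  have hnn : ∀ (j : Fin r) (p : Plc), 0 ≤ Real.log (B j p) + Real.log (B' j p) := fun j p =>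
    add_nonneg (Real.log_nonneg (hB1 j p)) (Real.log_nonneg (hB'1 j p))
  refine ⟨∑ j : Fin r, ∑ᶠ p, (Real.log (B j p) + Real.log (B' j p)), fun P hvP hwP => ?_⟩
  -- `E P = 0`
  have hEP : E P = 0 := by
    rw [hE, crvDiv_apply]
    have h1 := FF.ord_nonneg_of_mem P hvP
    have h2 := FF.ord_nonneg_of_mem P hwP
    rw [max_eq_right (by omega), max_eq_right (by omega)]
    ring
  -- a section not vanishing at `P`
  obtain ⟨s, hs, hs0, hsord⟩ := S37lib.Curve.exists_ord_eq_neg hF hdegE P
  rw [hEP, neg_zero] at hsord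
  have hsval : val P s ≠ 0 := val_ne_zero P hs0 hsord
  have hzP : ∀ j : Fin r, ((bs j : riemannRochSpace E) : F) ∈ P.toValuationSubring :=
    fun j => mem_of_mem_crvDiv (hzmem j) P hvP
  obtain ⟨j, hj⟩ : ∃ j : Fin r, val P ((bs j : riemannRochSpace E) : F) ≠ 0 := by
    by_contra hcon
    push Not at hcon
    apply hsval
    have hrepr := bs.sum_repr ⟨s, hs⟩
    have hs' : s = ∑ j : Fin r, (bs.repr ⟨s, hs⟩ j) • ((bs j : riemannRochSpace E) : F) := by
      have h3 : ((∑ j : Fin r, (bs.repr ⟨s, hs⟩ j) • bs j : riemannRochSpace E) : F) = s :=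
        congrArg Subtype.val hrepr
      simp only [Submodule.coe_sum, Submodule.coe_smul] at h3
      exact h3.symm
    rw [hs', val_sum P _ _ fun j _ => by
      rw [Algebra.smul_def]
      exact mul_mem (P.algebraMap_mem' _) (hzP j)]
    refine Finset.sum_eq_zero fun j _ => ?_
    rw [val_smul P _ (hzP j), hcon j, mul_zero]
  -- the master lemma
  have hm := master3 (val P w) (val P v) (val P ((bs j : riemannRochSpace E) : F))
    (b : ℝ) (-(a : ℝ)) 0 0 0 1 (fun _ => rfl) (fun _ => rfl) (fun h => absurd h hj)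
    (fun p => Real.log (B j p) + Real.log (B' j p)) (hfs j) (fun σ p => by
      have h1 := hB j P hvP σ p
      have h2 := hB' j P hvP σ p
      rw [val_mul P (hzP j) (pow_mem hwP b), val_pow P hwP, map_mul, map_mul, map_pow,
        map_pow] at h2
      have hX : 0 < absv p (σ (val P ((bs j : riemannRochSpace E) : F))) :=
        (absv p).pos (by
          intro h0
          exact hj ((map_eq_zero σ).1 h0))
      have := crv_local hX ((absv p).nonneg _) (le_max_left 1 (absv p (σ (val P v))))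
        (hB1 j p) (hB'1 j p) h1 h2
      unfold HT.lp
      linarith)
  have hle : ∑ᶠ p, (Real.log (B j p) + Real.log (B' j p)) ≤
      ∑ j : Fin r, ∑ᶠ p, (Real.log (B j p) + Real.log (B' j p)) :=
    Finset.single_le_sum (f := fun j => ∑ᶠ p, (Real.log (B j p) + Real.log (B' j p)))
      (fun j _ => finsum_nonneg (hnn j)) (Finset.mem_univ j)
  linarith

omit [RatPlaces Qb F] in
/-- a non-constant function has a pole -/
theorem degree_poleDiv_pos (hF : IsCurveOfGenus Qb F g) {v : F} (hv : Transcendental Qb v) :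
    0 < Divisor.degree (Tame.poleDiv (K := Qb) v) := by
  by_contra hcon
  push Not at hcon
  have h0 := S37lib.Curve.degree_nonneg hF (Tame.poleDiv_nonneg (K := Qb) v)
  have hdeg : Divisor.degree (Tame.poleDiv (K := Qb) v) = 0 := le_antisymm hcon h0
  have hpos : ∀ P : Place Qb F, 0 < P.deg := fun P => by rw [hF.deg_eq_one]; exact one_pos
  have hz := Tame.eq_zero_of_nonneg_of_degree_eq_zero hpos (Tame.poleDiv_nonneg (K := Qb) v) hdeg
  have hmem : v ∈ riemannRochSpace (0 : Divisor Qb F) := by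
    rw [mem_riemannRochSpace_iff]
    intro P
    right
    have := congrArg (fun D : Divisor Qb F => D P) hz
    simp only [Tame.poleDiv_apply, Finsupp.zero_apply] at this
    rw [Finsupp.zero_apply, neg_zero]
    have h1 : -P.ord v ≤ max (-P.ord v) 0 := le_max_left _ _
    omega
  rw [hF.riemannRochSpace_zero] at hmem
  obtain ⟨c, hc⟩ := Algebra.mem_bot.1 hmem
  apply hv
  rw [← hc]
  exact isAlgebraic_algebraMap c

/-- **CRV**: on one curve over `ℚ̄`, the height of `w` is at most
`(deg (w)_∞ / deg (v)_∞ + ε)` times the height of `v`, up to a constant. -/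
theorem crv (hF : IsCurveOfGenus Qb F g) (v w : F) (hv : Transcendental Qb v)
    [FiniteDimensional Qb⟮v⟯ F] {ε : ℝ} (hε : 0 < ε) :
    ∃ C : ℝ, ∀ P : Place Qb F, v ∈ P.toValuationSubring → w ∈ P.toValuationSubring →
      h1 (val P w) ≤ ((Divisor.degree (Tame.poleDiv (K := Qb) w) : ℝ) /
        Divisor.degree (Tame.poleDiv (K := Qb) v) + ε) * h1 (val P v) + C := by
  set dv : ℤ := Divisor.degree (Tame.poleDiv (K := Qb) v) with hdv
  set dw : ℤ := Divisor.degree (Tame.poleDiv (K := Qb) w) with hdw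
  have hdvpos : 0 < dv := degree_poleDiv_pos hF hv
  have hdwnn : 0 ≤ dw := S37lib.Curve.degree_nonneg hF (Tame.poleDiv_nonneg (K := Qb) w)
  have hdvR : (0 : ℝ) < dv := by exact_mod_cast hdvpos
  have hdwR : (0 : ℝ) ≤ dw := by exact_mod_cast hdwnn
  have hcoef : 0 ≤ (dw : ℝ) / dv + ε := by positivity
  rcases eq_or_ne w 0 with rfl | hw0
  · refine ⟨0, fun P _ _ => ?_⟩
    rw [val_zero, h1_zero, add_zero]
    exact mul_nonneg hcoef (h1_nonneg _)
  -- choose `b`
  obtain ⟨b, hb⟩ := exists_nat_ge ((2 * (g : ℝ) + dv) / (ε * dv) + 1)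
  have hb1 : (1 : ℝ) ≤ b := by
    have : 0 ≤ (2 * (g : ℝ) + dv) / (ε * dv) := by positivity
    linarith
  have hbpos : (0 : ℝ) < b := lt_of_lt_of_le one_pos hb1
  have hbε : (2 * (g : ℝ) + dv) / (b * dv) ≤ ε := by
    have h1 : (2 * (g : ℝ) + dv) / (ε * dv) ≤ b := by linarith
    rw [div_le_iff₀ (by positivity)] at h1 ⊢
    nlinarith
  -- choose `a`
  set n : ℤ := b * dw + 2 * g with hn
  have hn0 : 0 ≤ n := by positivity
  set a : ℕ := (n / dv + 1).toNat with ha
  have haZ : (a : ℤ) = n / dv + 1 := by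
    rw [ha, Int.toNat_of_nonneg]
    have := Int.ediv_nonneg hn0 hdvpos.le
    omega
  have hlow : n ≤ a * dv := by
    rw [haZ]
    have := Int.lt_ediv_add_one_mul_self n hdvpos
    linarith
  have hupp : (a : ℤ) * dv ≤ n + dv := by
    rw [haZ]
    have := Int.ediv_mul_le n hdvpos.ne'
    linarith
  obtain ⟨C, hC⟩ := crv_aux hF v w hw0 hv a b (by rw [← hdv, ← hdw]; linarith)
  refine ⟨C / b, fun P hvP hwP => ?_⟩
  have h := hC P hvP hwP
  have hhv := h1_nonneg (val P v)
  -- `a / b ≤ dw / dv + ε`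
  have huppR : (a : ℝ) * dv ≤ b * dw + 2 * g + dv := by
    have : ((a : ℤ) * dv : ℝ) ≤ ((n + dv : ℤ) : ℝ) := by exact_mod_cast hupp
    rw [hn] at this
    push_cast at this
    linarith
  have hab : (a : ℝ) / b ≤ (dw : ℝ) / dv + ε := by
    have h1 : (a : ℝ) / b ≤ (dw : ℝ) / dv + (2 * (g : ℝ) + dv) / (b * dv) := by
      rw [div_add_div _ _ hdvR.ne' (by positivity), div_le_div_iff₀ hbpos (by positivity)]
      have hbd : (0 : ℝ) ≤ b * dv := by positivity
      have := mul_le_mul_of_nonneg_right huppR hbd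
      nlinarith
    linarith
  have h2 : h1 (val P w) ≤ (a : ℝ) / b * h1 (val P v) + C / b := by
    rw [div_mul_eq_mul_div, ← add_div, le_div_iff₀ hbpos]
    linarith
  have h3 : (a : ℝ) / b * h1 (val P v) ≤ ((dw : ℝ) / dv + ε) * h1 (val P v) :=
    mul_le_mul_of_nonneg_right hab hhv
  linarith

end Main

end Fermat.Agent.S17lib.CRV
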