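/-
S17lib / CRV / FunDeg  (helper8) — Project G, block CRV, part 4.

CRV with the degrees written as field degrees `[F : ℚ̄(v)]`, `[F : ℚ̄(w)]` (`crv_finrank`),
and in the `HasValueAt` language of `S17lib/Iface.lean` (`crv_hasValueAt`).
-/
import Mathlib
import Fermat.Agent.S17lib.CRV.Main
import Fermat.Agent.S18lib.Weak.PolyAdapter
import Fermat.Agent.ProgramR.FunctionField.Divisor

set_option autoImplicit false
set_option linter.unusedSectionVars false
set_option linter.style.haveILetI false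

noncomputable section

namespace Fermat.Agent.S17lib.CRV

open AlgebraicCurve IntermediateField Module
open Fermat.Agent.ProgramR Fermat.Agent.S18lib
open Fermat.Agent.S15lib.Weil Fermat.Agent.S17lib.HT

variable {F : Type*} [Field F] [Algebra Qb F] {g : ℕ}

/-- **CRV with field degrees**: `h(w(P)) ≤ ([F:ℚ̄(w)] / [F:ℚ̄(v)] + ε) h(v(P)) + C`
(`finrank ℚ̄(w) F = 0` for constant `w`). -/
theorem crv_finrank [HasPrincipalDivisors Qb F] [RatPlaces Qb F] (hF : IsCurveOfGenus Qb F g)
    (v w : F) (hv : Transcendental Qb v) [FiniteDimensional Qb⟮v⟯ F] {ε : ℝ} (hε : 0 < ε) :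
    ∃ C : ℝ, ∀ P : Place Qb F, v ∈ P.toValuationSubring → w ∈ P.toValuationSubring →
      h1 (val P w) ≤ ((finrank Qb⟮w⟯ F : ℝ) / finrank Qb⟮v⟯ F + ε) * h1 (val P v) + C := by
  have hdv : Divisor.degree (Tame.poleDiv (K := Qb) v) = (finrank Qb⟮v⟯ F : ℤ) :=
    degree_poleDiv_eq_finrank_adjoin Qb hv
  by_cases hw : Transcendental Qb w
  · haveI : FiniteDimensional Qb⟮w⟯ F := FF.finiteDimensional_adjoin_of_transcendental v hw
    have hdw : Divisor.degree (Tame.poleDiv (K := Qb) w) = (finrank Qb⟮w⟯ F : ℤ) :=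
      degree_poleDiv_eq_finrank_adjoin Qb hw
    obtain ⟨C, hC⟩ := crv hF v w hv hε
    refine ⟨C, fun P hvP hwP => ?_⟩
    have := hC P hvP hwP
    rw [hdv, hdw, Int.cast_natCast, Int.cast_natCast] at this
    exact this
  · rw [Transcendental, not_not] at hw
    obtain ⟨c, hc⟩ := FF.exists_algebraMap_eq_of_isAlgebraic hw
    refine ⟨h1 c, fun P _ _ => ?_⟩
    rw [← hc, val_algebraMap]
    have h0 : 0 ≤ ((finrank Qb⟮algebraMap Qb F c⟯ F : ℝ) / finrank Qb⟮v⟯ F + ε) * h1 (val P v) :=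
      mul_nonneg (by positivity) (h1_nonneg _)
    linarith

/-- the value of a function at a place, in the `HasValueAt` form -/
theorem mem_and_val_eq_of_hasValue [RatPlaces Qb F] (P : Place Qb F) {t : F} {a : Qb}
    (h : t = algebraMap Qb F a ∨ 0 < P.ord (t - algebraMap Qb F a)) :
    t ∈ P.toValuationSubring ∧ val P t = a := by
  have hmem : t ∈ P.toValuationSubring := by
    rcases h with h | h
    · rw [h]; exact P.algebraMap_mem' a
    · have h1 : t - algebraMap Qb F a ∈ P.toValuationSubring := FF.mem_of_ord_nonneg P h.le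
      have h2 := add_mem h1 (P.algebraMap_mem' a)
      rwa [sub_add_cancel] at h2
  exact ⟨hmem, (val_eq_iff P hmem a).2 h⟩

/-- **CRV, self-contained form** (no curve hypothesis beyond a separating variable, values in the
`HasValueAt` form of `S17lib/Iface.lean`). -/
theorem crv_values (v w : F) (hv : Transcendental Qb v) [FiniteDimensional Qb⟮v⟯ F] {ε : ℝ}
    (hε : 0 < ε) :
    ∃ C : ℝ, ∀ (P : Place Qb F) (a b : Qb),
      (v = algebraMap Qb F a ∨ 0 < P.ord (v - algebraMap Qb F a)) →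
      (w = algebraMap Qb F b ∨ 0 < P.ord (w - algebraMap Qb F b)) →
      h1 b ≤ ((finrank Qb⟮w⟯ F : ℝ) / finrank Qb⟮v⟯ F + ε) * h1 a + C := by
  have hF := RRgen.Canonical.isCurveOfGenus_genusOf Qb hv
  haveI := hF.hasPrincipalDivisors
  haveI : RatPlaces Qb F := ⟨hF.deg_eq_one⟩
  obtain ⟨C, hC⟩ := crv_finrank hF v w hv hε
  refine ⟨C, fun P a b ha hb => ?_⟩
  obtain ⟨hvP, hva⟩ := mem_and_val_eq_of_hasValue P ha
  obtain ⟨hwP, hwb⟩ := mem_and_val_eq_of_hasValue P hb
  have := hC P hvP hwP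
  rwa [hva, hwb] at this

end Fermat.Agent.S17lib.CRV
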