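/-
S17lib / CRV / Chief  (helper8) — Project G, block CRV, part 5.

Block CRV in the chief architect's exact shape (`S17lib/Glue.lean`):
`crv_chief (L) : S17lib.CRV HT.h1 L` for every field `L` over `ℚ̄`.
-/
import Mathlib
import Fermat.Agent.S17lib.CRV.FunDeg
import Fermat.Agent.S17lib.Glue

set_option autoImplicit false
set_option linter.unusedSectionVars false
set_option linter.style.haveILetI false

noncomputable section

namespace Fermat.Agent.S17lib.CRV

open AlgebraicCurve IntermediateField Module
open Fermat.Agent.ProgramR Fermat.Agent.S18lib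
open Fermat.Agent.S15lib.Weil Fermat.Agent.S17lib.HT

variable {L : Type*} [Field L] [Algebra Qb L]

/-- a field which is finite over an algebraic simple extension of `ℚ̄` has no places -/
theorem isEmpty_place_of_isAlgebraic {w : L} (hw : IsAlgebraic Qb w)
    (hfin : FiniteDimensional Qb⟮w⟯ L) : IsEmpty (Place Qb L) := by
  refine ⟨fun x => ?_⟩
  apply x.ne_top'
  rw [eq_top_iff]
  intro f _
  -- every element of `L` is algebraic over `ℚ̄`
  haveI : FiniteDimensional Qb Qb⟮w⟯ := adjoin.finiteDimensional hw.isIntegral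
  haveI : FiniteDimensional Qb L := Module.Finite.trans Qb⟮w⟯ L
  have hf : IsAlgebraic Qb f := Algebra.IsAlgebraic.isAlgebraic f
  exact FF.mem_of_ord_nonneg x (FF.ord_eq_zero_of_isAlgebraic x hf).ge

/-- **block CRV, in the chief's shape** -/
theorem crv_chief (L : Type*) [Field L] [Algebra Qb L] : Fermat.Agent.S17lib.CRV h1 L := by
  intro u w hw ε hε
  have hfin : FiniteDimensional Qb⟮w⟯ L := Module.finite_of_finrank_pos hw
  by_cases hwt : Transcendental Qb w
  · obtain ⟨C, hC⟩ := crv_values w u hwt hε
    refine ⟨C, fun x hxu hxw => ?_⟩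
    have hdeg : x.deg = 1 := FF.deg_eq_one w x
    obtain ⟨a, ha⟩ := exists_hasValueAt hdeg hxw
    obtain ⟨b, hb⟩ := exists_hasValueAt hdeg hxu
    rw [valueAt_eq ha, valueAt_eq hb]
    exact hC x a b ha hb
  · rw [Transcendental, not_not] at hwt
    have := isEmpty_place_of_isAlgebraic hwt hfin
    exact ⟨0, fun x => isEmptyElim x⟩

end Fermat.Agent.S17lib.CRV
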